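/-
Row 37 (S43), block GLUE (helper144).  LAYER 1: THE ABSTRACT CONTRACT.

`Pkg p e W W₀` = helper210's counting data `T2.Data p (e + 1) e W W₀` (exponent `n = p ^ (e + 1)`, `P = p ^ e` the order of
`Δ`) + the operators `S = ρ(σ)`, `F = ρ(φ)`, `U = U_q`, `Ut = U_q^t` on `W = W_H(n)_m`, `F₀`, `U₀` on `W₀ = W_0(n)_m`.
`Red D Wb` = a reduction `π : W → Wb` modulo `p` (`Wb = W / p W`, e.g. `W_H(p)_m` with `π = dn`), the reduced operators and
the (H5) decomposition of `Sb - 1`.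

THEOREM `nonempty_data : Pkg → Red → Nonempty (CoreP.Data p)`; with `TopP.result_of_deformP'` this is the frozen S43.

No localisation at `U_q`, no `U U^t` identity, no orthogonality at level `H`, no geometry at level `H`.
-/
import Fermat.Agent.S43.T2.Abs
import Fermat.Agent.S43.CoreP

set_option autoImplicit false
set_option linter.unusedSectionVars false

namespace Fermat.Agent.S43.Glue

/-- **The abstract package** at exponent `p ^ (e + 1)`. -/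
structure Pkg (p e : ℕ) (W W₀ : Type) [AddCommGroup W] [AddCommGroup W₀]
    extends T2.Data p (e + 1) e W W₀ where
  /-- `q = 1 + κ p ^ e`, `p ∤ κ` -/
  κ : ℕ
  q : ℕ
  hq : q = 1 + κ * p ^ e
  hκ : ¬ p ∣ κ
  /-- `ρ(σ)`, `σ` in the inertia group at `q` -/
  S : W →+ W
  /-- `ρ(φ)`, `φ` a Frobenius at `q` -/
  F : W →+ W
  /-- `U_q` -/
  U : W →+ W
  /-- `U_q^t = w U_q w⁻¹` -/
  Ut : W →+ W
  F₀ : W₀ →+ W₀
  U₀ : W₀ →+ W₀
  a_eq : ∀ x, a x = S x - x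
  δ_U : ∀ x, δ (U x) = U (δ x)
  δ_S : ∀ x, δ (S x) = S (δ x)
  U_S : ∀ x, U (S x) = S (U x)
  Ut_S : ∀ x, Ut (S x) = S (Ut x)
  /-- the tame relation `φ σ = σ ^ q φ` -/
  tame : ∀ x, F (S x) = (S^[q]) (F x)
  pr_F : ∀ x, pr (F x) = F₀ (pr x)
  pr_U : ∀ x, pr (U x) = U₀ (pr x)
  /-- at level `Γ₀` (not `q`-old) `U_q^t = U_q` -/
  pr_Ut : ∀ x, pr (Ut x) = U₀ (pr x)
  U₀_surj : Function.Surjective U₀
  /-- Eichler-Shimura at `q` on the two components -/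
  FK : ∀ x, F x - U x ∈ K
  FK' : ∀ x, F x - Ut x ∈ K'
  /-- level `Γ₀`: `φ = U_q` on `W₀ / Y₀` -/
  L0 : ∀ y, N₀ (F₀ y - U₀ y) = 0
  /-- `W₀` is free over `ℤ / p ^ (e + 1)` -/
  Z1 : ∀ y : W₀, p ^ e • y = 0 → ∃ z, y = p • z
  Z2 : ∀ y : W₀, p • y = 0 → ∃ z, y = p ^ e • z

/-- **Reduction modulo `p`** of a package, with the (H5) decomposition. -/
structure Red {p e : ℕ} {W W₀ : Type} [AddCommGroup W] [AddCommGroup W₀] (D : Pkg p e W W₀)
    (Wb : Type) [AddCommGroup Wb] [Module (ZMod p) Wb] where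
  π : W →+ Wb
  π_surj : Function.Surjective π
  ker_π : ∀ x, π x = 0 → ∃ y, x = p • y
  δb : Module.End (ZMod p) Wb
  Sb : Module.End (ZMod p) Wb
  Fb : Module.End (ZMod p) Wb
  Ub : Module.End (ZMod p) Wb
  Utb : Module.End (ZMod p) Wb
  π_δ : ∀ x, π (D.δ x) = δb (π x)
  π_S : ∀ x, π (D.S x) = Sb (π x)
  π_F : ∀ x, π (D.F x) = Fb (π x)
  π_U : ∀ x, π (D.U x) = Ub (π x)
  π_Ut : ∀ x, π (D.Ut x) = Utb (π x)
  /-- (H5) -/
  ι : Type
  s : Finset ι
  t : ι → Module.End (ZMod p) Wb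
  c : ι → Module.End (ZMod p) Wb
  t_δ : ∀ i, Commute (t i) δb
  t_S : ∀ i, Commute (t i) Sb
  t_F : ∀ i, Commute (t i) Fb
  t_U : ∀ i, Commute (t i) Ub
  t_t : ∀ i j, Commute (t i) (t j)
  t_nilp : ∀ i, IsNilpotent (t i)
  c_δ : ∀ i, Commute (c i) δb
  c_U : ∀ i, Commute (c i) Ub
  c_Ut : ∀ i, Commute (c i) Utb
  H5 : Sb - 1 = ∑ i ∈ s, t i * c i

namespace Pkg

variable {p e : ℕ} [Fact p.Prime] {W W₀ : Type} [AddCommGroup W] [AddCommGroup W₀]
  (D : Pkg p e W W₀)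

include D in
theorem hW₀ (y : W₀) : p ^ (e + 1) • y = 0 := by
  obtain ⟨x, rfl⟩ := D.pr_surj y
  rw [← map_nsmul, D.hW, map_zero]

include D in
theorem finite_W₀ [Finite W] : Finite W₀ := Finite.of_surjective _ D.pr_surj

/-- (F4): `ker T = inc W₀` (Herbrand quotient). -/
theorem exists_inc_of_fixed [Finite W] (x : W) (hx : D.δ x = x) : ∃ y, x = D.inc y := by
  have := D.finite_W₀
  set T : W →+ W := T2.Tm D.δ with hT
  have hle : D.inc.range ≤ T.ker := by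
    rintro _ ⟨y, rfl⟩
    rw [AddMonoidHom.mem_ker, hT, T2.Tm_apply, D.δ_inc, sub_self]
  have hrk : T.range = D.pr.ker := by
    ext z
    constructor
    · rintro ⟨t, rfl⟩
      rw [AddMonoidHom.mem_ker, hT, T2.Tm_apply, map_sub, D.pr_δ, sub_self]
    · intro hz
      obtain ⟨t, ht⟩ := D.ker_pr z hz
      exact ⟨t, by rw [hT, T2.Tm_apply, ht]⟩
  have h1 : Nat.card T.ker * Nat.card T.range = Nat.card W := by
    rw [← AddSubgroup.index_ker, AddSubgroup.card_mul_index]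
  have h2 : Nat.card D.pr.ker * Nat.card W₀ = Nat.card W := by
    have : Nat.card D.pr.range = Nat.card W₀ := by
      rw [AddMonoidHom.range_eq_top.mpr D.pr_surj]
      exact Nat.card_congr AddSubgroup.topEquiv.toEquiv
    rw [← this, ← AddSubgroup.index_ker, AddSubgroup.card_mul_index]
  have h3 : Nat.card D.inc.range = Nat.card W₀ :=
    (Nat.card_congr (AddMonoidHom.ofInjective D.inc_inj).toEquiv).symm
  have h4 : Nat.card T.ker = Nat.card W₀ := by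
    rw [hrk] at h1
    have hpos : 0 < Nat.card D.pr.ker := Nat.card_pos
    have : Nat.card D.pr.ker * Nat.card T.ker = Nat.card D.pr.ker * Nat.card W₀ := by
      rw [h2, mul_comm, h1]
    exact Nat.eq_of_mul_eq_mul_left hpos this
  have h5 : D.inc.range = T.ker :=
    AddSubgroup.eq_of_le_of_card_ge hle (by rw [h3, h4])
  have h6 : x ∈ T.ker := by
    rw [AddMonoidHom.mem_ker, hT, T2.Tm_apply, hx, sub_self]
  rw [← h5] at h6
  obtain ⟨y, rfl⟩ := h6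
  exact ⟨y, rfl⟩

/-- `T x ∈ p W → x ∈ inc W₀ + p W`. -/
theorem lift_fixed [Finite W] (x y : W) (h : D.δ x - x = p • y) :
    ∃ (y₁ : W₀) (w : W), x = D.inc y₁ + p • w := by
  have h1 : p • D.pr y = 0 := by
    rw [← map_nsmul, ← h, map_sub, D.pr_δ, sub_self]
  obtain ⟨z, hz⟩ := D.Z2 _ h1
  obtain ⟨y', rfl⟩ := D.pr_surj z
  have h2 : D.pr (y - p ^ e • y') = 0 := by
    rw [map_sub, hz, map_nsmul, sub_self]
  obtain ⟨y'', hy''⟩ := D.ker_pr _ h2
  have h3 : p • y = D.δ (p • y'') - p • y'' := by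
    have : y = p ^ e • y' + (D.δ y'' - y'') := by rw [← hy'']; abel
    have e1 : p • (p ^ e • y') = 0 := by
      rw [← mul_smul, ← pow_succ', D.hW]
    rw [this, smul_add, e1, zero_add, smul_sub, map_nsmul]
  have h4 : D.δ (x - p • y'') = x - p • y'' := by
    rw [map_sub]
    have : D.δ x = x + p • y := by rw [← h]; abel
    rw [this, h3]; abel
  obtain ⟨y₁, hy₁⟩ := D.exists_inc_of_fixed _ h4
  exact ⟨y₁, y'', by rw [← hy₁]; abel⟩

/-- the denominator trick: `K ∩ K' ∩ ker pr ⊆ p W`. -/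
theorem mem_p_of_mem [Finite W] {x : W} (hx : x ∈ D.K) (hx' : x ∈ D.K') (h0 : D.pr x = 0) :
    ∃ w, x = p • w := by
  have := D.finite_W₀
  obtain ⟨y, -, rfl⟩ := D.toData.exists_of_mem hx hx'
  rw [D.toData.pr_inc] at h0
  obtain ⟨z, rfl⟩ := D.Z1 y h0
  exact ⟨D.inc z, map_nsmul _ _ _⟩

theorem b_mem_K {g : W} (hg : g ∈ D.K) : D.a g - (D.δ g - g) ∈ D.K :=
  D.K.sub_mem (D.aK g) (D.K.sub_mem (D.K_δ g hg) hg)

theorem a_mem_K' {g : W} (hg : g ∈ D.K') : D.a g ∈ D.K' := by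
  have : D.a g = (D.a g - (D.δ g - g)) + (D.δ g - g) := by abel
  rw [this]
  exact D.K'.add_mem (D.bK' g) (D.K'.sub_mem (D.K'_δ g hg) hg)

theorem R1 [Finite W] (z : W) : ∃ w, D.a (D.a z) - (D.δ (D.a z) - D.a z) = p • w := by
  refine D.mem_p_of_mem (D.b_mem_K (D.aK z)) (D.bK' _) ?_
  rw [map_sub, map_sub, D.pr_δ, sub_self, sub_zero, D.pr_a, D.pr_a, D.toData.N₀_N₀]

theorem R2 [Finite W] (z : W) :
    ∃ w, D.a (D.F z - D.U z) - (D.δ (D.F z - D.U z) - (D.F z - D.U z)) = p • w := by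
  refine D.mem_p_of_mem (D.b_mem_K (D.FK z)) (D.bK' _) ?_
  rw [map_sub, map_sub D.pr (D.δ _), D.pr_δ, sub_self, sub_zero, D.pr_a, map_sub, D.pr_F, D.pr_U,
    D.L0]

theorem R2' [Finite W] (z : W) : ∃ w, D.a (D.F z - D.Ut z) = p • w := by
  refine D.mem_p_of_mem (D.aK _) (D.a_mem_K' (D.FK' z)) ?_
  rw [D.pr_a, map_sub, D.pr_F, D.pr_Ut, D.L0]

theorem hc (x : W) : ∃ y, D.Ut x - D.U x = D.δ y - y :=
  D.ker_pr _ (by rw [map_sub, D.pr_U, D.pr_Ut, sub_self])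

theorem U_gen (x : W) : ∃ u t, x = D.U u + (D.δ t - t) := by
  obtain ⟨y, hy⟩ := D.U₀_surj (D.pr x)
  obtain ⟨u, rfl⟩ := D.pr_surj y
  obtain ⟨t, ht⟩ := D.ker_pr (x - D.U u) (by rw [map_sub, D.pr_U, hy, sub_self])
  exact ⟨u, t, by rw [← ht]; abel⟩

/-- (E') modulo `p`. -/
theorem exact_aux (y₁ : W₀) (w : W) (h : D.inc (D.N₀ y₁) = p • w) :
    ∃ z z', y₁ = D.N₀ z + p • z' := by
  have h1 : D.inc (p ^ e • D.N₀ y₁) = 0 := by
    rw [map_nsmul, h, ← mul_smul, ← pow_succ, D.hW]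
  have h2 : p ^ e • D.N₀ y₁ = 0 := D.inc_inj (by rw [h1, map_zero])
  apply D.hpure
  rw [Nat.add_sub_cancel, map_nsmul, h2]

end Pkg

namespace Red

open Module

variable {p e : ℕ} [Fact p.Prime] {W W₀ : Type} [AddCommGroup W] [AddCommGroup W₀]
  {D : Pkg p e W W₀} {Wb : Type} [AddCommGroup Wb] [Module (ZMod p) Wb] (R : Red D Wb)

theorem p_smul (v : Wb) : p • v = 0 := by
  rw [← Nat.cast_smul_eq_nsmul (ZMod p), ZMod.natCast_self, zero_smul]

theorem π_p (w : W) : R.π (p • w) = 0 := by rw [map_nsmul, p_smul]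

theorem π_a (x : W) : R.π (D.a x) = (R.Sb - 1) (R.π x) := by
  rw [D.a_eq, map_sub, R.π_S]; rfl

theorem π_T (x : W) : R.π (D.δ x - x) = (R.δb - 1) (R.π x) := by
  rw [map_sub, R.π_δ]; rfl

theorem π_δ_pow (j : ℕ) (x : W) : R.π ((D.δ ^ j) x) = (R.δb ^ j) (R.π x) := by
  induction j with
  | zero => simp
  | succ j ih =>
    rw [pow_succ', pow_succ', End.mul_apply, ← ih, ← R.π_δ]
    rfl

theorem π_S_iter (j : ℕ) (x : W) : R.π ((D.S^[j]) x) = (R.Sb ^ j) (R.π x) := by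
  induction j with
  | zero => simp
  | succ j ih =>
    rw [Function.iterate_succ_apply', pow_succ', End.mul_apply, ← ih, ← R.π_S]

theorem π_T_iter (j : ℕ) (x : W) :
    R.π (((T2.Tm D.δ)^[j]) x) = ((R.δb - 1) ^ j) (R.π x) := by
  induction j with
  | zero => simp
  | succ j ih =>
    rw [Function.iterate_succ_apply', pow_succ', End.mul_apply, ← ih, ← R.π_T]
    rfl

/-- two endomorphisms of `Wb` agreeing on the image of `π` are equal -/
theorem ext_π {f g : End (ZMod p) Wb} (h : ∀ x, f (R.π x) = g (R.π x)) : f = g := by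
  refine LinearMap.ext fun v => ?_
  obtain ⟨x, rfl⟩ := R.π_surj v
  exact h x

theorem δb_pow : R.δb ^ (p ^ e) = 1 := by
  refine R.ext_π fun x => ?_
  rw [← R.π_δ_pow, D.hδ]; rfl

theorem T_pow : (R.δb - 1) ^ (p ^ e) = 0 := by
  refine R.ext_π fun x => ?_
  rw [← R.π_T_iter]
  obtain ⟨y, hy⟩ := T2.mem_pS.mp (T2.iterate_T_mem_pS p e D.δ D.hδ x)
  rw [hy, R.π_p]; rfl

theorem δ_U : Commute R.δb R.Ub :=
  R.ext_π fun x => by
    rw [End.mul_apply, End.mul_apply, ← R.π_U, ← R.π_δ, ← R.π_δ, ← R.π_U, D.δ_U]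

theorem δ_S : Commute R.δb R.Sb :=
  R.ext_π fun x => by
    rw [End.mul_apply, End.mul_apply, ← R.π_S, ← R.π_δ, ← R.π_δ, ← R.π_S, D.δ_S]

theorem U_S : Commute R.Ub R.Sb :=
  R.ext_π fun x => by
    rw [End.mul_apply, End.mul_apply, ← R.π_S, ← R.π_U, ← R.π_U, ← R.π_S, D.U_S]

theorem Ut_S : Commute R.Utb R.Sb :=
  R.ext_π fun x => by
    rw [End.mul_apply, End.mul_apply, ← R.π_S, ← R.π_Ut, ← R.π_Ut, ← R.π_S, D.Ut_S]

theorem U_surj : Function.Surjective R.Ub := by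
  have base : ∀ v : Wb, ∃ u w, v = R.Ub u + (R.δb - 1) w := by
    intro v
    obtain ⟨x, rfl⟩ := R.π_surj v
    obtain ⟨u, t, h⟩ := D.U_gen x
    exact ⟨R.π u, R.π t, by rw [← R.π_U, ← R.π_T, ← map_add, ← h]⟩
  have hcomm : Commute (R.δb - 1) R.Ub := R.δ_U.sub_left (Commute.one_left _)
  have key : ∀ n : ℕ, ∀ v : Wb, ∃ u w, v = R.Ub u + ((R.δb - 1) ^ n) w := by
    intro n
    induction n with
    | zero => intro v; exact ⟨0, v, by simp⟩
    | succ n ih =>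
      intro v
      obtain ⟨u, w, rfl⟩ := ih v
      obtain ⟨u', w', rfl⟩ := base w
      refine ⟨u + ((R.δb - 1) ^ n) u', w', ?_⟩
      rw [map_add, map_add, pow_succ, End.mul_apply, ← End.mul_apply _ R.Ub,
        (hcomm.pow_left n).eq, End.mul_apply, add_assoc]
  intro v
  obtain ⟨u, w, rfl⟩ := key (p ^ e) v
  exact ⟨u, by rw [R.T_pow]; simp⟩

include R in
theorem finite_Wb [Finite W] : Finite Wb := Finite.of_surjective _ R.π_surj

theorem U_unit [Finite W] : IsUnit R.Ub := by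
  have := R.finite_Wb
  have : Module.Finite (ZMod p) Wb := Module.Finite.of_finite
  rw [End.isUnit_iff]
  exact ⟨LinearMap.injective_iff_surjective.mpr R.U_surj, R.U_surj⟩

include R in
theorem nontrivial_Wb [Nontrivial W₀] : Nontrivial Wb := by
  by_contra hn
  rw [not_nontrivial_iff_subsingleton] at hn
  have h1 : ∀ x : W, ∃ y, x = p • y := fun x => R.ker_π x (Subsingleton.elim _ _)
  have h2 : ∀ n : ℕ, ∀ x : W, ∃ y, x = p ^ n • y := by
    intro n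
    induction n with
    | zero => intro x; exact ⟨x, by simp⟩
    | succ n ih =>
      intro x
      obtain ⟨y, rfl⟩ := ih x
      obtain ⟨z, rfl⟩ := h1 y
      exact ⟨z, by rw [← mul_smul, ← pow_succ]⟩
  have h3 : ∀ x : W, x = 0 := by
    intro x
    obtain ⟨y, rfl⟩ := h2 (e + 1) x
    exact D.hW y
  obtain ⟨y, hy⟩ := exists_ne (0 : W₀)
  obtain ⟨x, rfl⟩ := D.pr_surj y
  exact hy (by rw [h3 x, map_zero])

/-- `T x = 0` in `Wb` implies `x ∈ π (inc W₀)`. -/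
theorem exists_inc [Finite W] (v : Wb) (hv : (R.δb - 1) v = 0) : ∃ y₁, v = R.π (D.inc y₁) := by
  obtain ⟨x, rfl⟩ := R.π_surj v
  rw [← R.π_T] at hv
  obtain ⟨y, hy⟩ := R.ker_π _ hv
  obtain ⟨y₁, w, rfl⟩ := D.lift_fixed x y hy
  exact ⟨y₁, by rw [map_add, R.π_p, add_zero]⟩

theorem T_inc (y : W₀) : (R.δb - 1) (R.π (D.inc y)) = 0 := by
  rw [← R.π_T, D.δ_inc, sub_self, map_zero]

include R in
/-- **GLUE, layer 1.** -/
theorem nonempty_data [Finite W] [Nontrivial W₀] : Nonempty (CoreP.Data p) := by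
  have hnt := R.nontrivial_Wb
  have h1T : 1 + (R.δb - 1) = R.δb := by abel
  refine ⟨{
    W := Wb
    P := p ^ e
    κ := D.κ
    q := D.q
    hq := D.hq
    hκ := fun h => D.hκ ((ZMod.natCast_eq_zero_iff _ _).mp h)
    T := R.δb - 1
    U := R.Ub
    Ut := R.Utb
    S := R.Sb
    F := R.Fb
    U_unit := R.U_unit
    T_U := R.δ_U.sub_left (Commute.one_left _)
    T_S := R.δ_S.sub_left (Commute.one_left _)
    U_S := R.U_S
    Ut_S := R.Ut_S
    δ_pow := by rw [h1T]; exact R.δb_pow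
    T_nilp := ⟨p ^ e, R.T_pow⟩
    H1 := ?_
    R1 := ?_
    R2 := ?_
    R2' := ?_
    tame := ?_
    hc := ?_
    ι := R.ι
    s := R.s
    t := R.t
    a := R.c
    t_T := fun i => (R.t_δ i).sub_right (Commute.one_right _)
    t_S := R.t_S
    t_F := R.t_F
    t_U := R.t_U
    t_t := R.t_t
    t_nilp := R.t_nilp
    a_T := fun i => (R.c_δ i).sub_right (Commute.one_right _)
    a_U := R.c_U
    a_Ut := R.c_Ut
    H5 := R.H5
    exact := ?_ }⟩
  · -- H1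
    intro v hv
    obtain ⟨y₁, rfl⟩ := R.exists_inc v hv
    obtain ⟨x₁, rfl⟩ := D.pr_surj y₁
    refine ⟨R.π x₁, ?_⟩
    rw [D.inc_pr, map_sum, CoreP.Nm, h1T, LinearMap.sum_apply]
    exact Finset.sum_congr rfl fun j _ => R.π_δ_pow j x₁
  · -- R1
    rw [h1T]
    refine R.ext_π fun z => ?_
    obtain ⟨w, hw⟩ := D.R1 z
    have : (R.Sb - R.δb) = (R.Sb - 1) - (R.δb - 1) := by abel
    rw [End.mul_apply, ← R.π_a, this, LinearMap.sub_apply, ← R.π_a, ← R.π_T, ← map_sub, hw, R.π_p]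
    rfl
  · -- R2
    rw [h1T]
    refine R.ext_π fun z => ?_
    obtain ⟨w, hw⟩ := D.R2 z
    have : (R.Sb - R.δb) = (R.Sb - 1) - (R.δb - 1) := by abel
    have h2 : (R.Fb - R.Ub) (R.π z) = R.π (D.F z - D.U z) := by
      rw [map_sub, R.π_F, R.π_U]; rfl
    rw [End.mul_apply, h2, this, LinearMap.sub_apply, ← R.π_a, ← R.π_T, ← map_sub, hw, R.π_p]
    rfl
  · -- R2'
    refine R.ext_π fun z => ?_
    obtain ⟨w, hw⟩ := D.R2' z
    have h2 : (R.Fb - R.Utb) (R.π z) = R.π (D.F z - D.Ut z) := by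
      rw [map_sub, R.π_F, R.π_Ut]; rfl
    rw [End.mul_apply, h2, ← R.π_a, hw, R.π_p]
    rfl
  · -- tame
    refine R.ext_π fun x => ?_
    rw [End.mul_apply, End.mul_apply, ← R.π_S, ← R.π_F, ← R.π_F, ← R.π_S_iter, D.tame]
  · -- hc
    intro v
    obtain ⟨x, rfl⟩ := R.π_surj v
    obtain ⟨y, hy⟩ := D.hc x
    exact ⟨R.π y, by rw [← R.π_T, ← hy, map_sub, R.π_Ut, R.π_U]⟩
  · -- exact
    intro v hv hS
    obtain ⟨y₁, rfl⟩ := R.exists_inc v hv
    have h1 : R.π (D.inc (D.N₀ y₁)) = 0 := by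
      rw [← D.a_inc, R.π_a, LinearMap.sub_apply, hS]
      exact sub_self _
    obtain ⟨w, hw⟩ := R.ker_π _ h1
    obtain ⟨z, z', rfl⟩ := D.exact_aux y₁ w hw
    refine ⟨R.π (D.inc z), R.T_inc z, ?_⟩
    rw [map_add, map_add, map_nsmul D.inc, R.π_p, add_zero, ← D.a_inc, R.π_a]
    rfl

end Red

end Fermat.Agent.S43.Glue
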