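/-
Row 37 (S43), block GLUE (helper144).  LAYER 2: THE RAW CONTRACT (definitions only).

The block outputs live on the FULL Kummer modules `V = W1 F1 n`, `V₀ = W1 F0 n`, `Vb = W1 F1 p` (`n = p ^ (e + 1)`), or on their
`m`-parts `loc t`, `loc t₀`, `loc tb` seen as SUBGROUPS (`LocZ.loc`, helper143): no subtype, no quotient, no module structure
appears in a field.  `t i` runs through `T_ℓ - a_ℓ` (good `ℓ`) and `⟨d⟩ - 1` (all `d`); `t₀ i` = the same at level `Γ₀` (`0` for the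
diamond indices).

* `FreeRaw p e t t₀` : block FREE + OPS-PI (`g = ⟨d⟩`, `d` a generator of `(ℤ/q)ˣ`; `dn = π_*`, `up = π^*`);
* `Raw p e t t₀`     : + OPS, TRIV, C4, L0, E0, EXP, TAME, DICT;
* `RawRed R tb`      : EXP (`π = dn : W1 F1 (p * p ^ e) → W1 F1 p`) + the operators at exponent `p`;
* `H5Add`            : block H5, in additive form.
Layer 2 theorem (files `Glue/FreeZ`, `Glue/RawPkg`, `Glue/RawRed`, `Glue/Main`):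
`Raw + RawRed + H5Add ⟹ Glue.Pkg + Glue.Red ⟹ Nonempty (CoreP.Data p)`.
-/
import Fermat.Agent.S43.Glue.Abs
import Fermat.Agent.S43.H.LocZ

set_option autoImplicit false

namespace Fermat.Agent.S43.Glue

open Fermat.Agent.S43.LocZ

/-- **FREE + OPS-PI, raw form.** -/
structure FreeRaw (p e : ℕ) {ι V V₀ : Type} [AddCommGroup V] [AddCommGroup V₀]
    (t : ι → V →+ V) (t₀ : ι → V₀ →+ V₀) where
  hV : ∀ x : V, p ^ (e + 1) • x = 0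
  hV₀ : ∀ y : V₀, p ^ (e + 1) • y = 0
  t_comm : ∀ i j x, t i (t j x) = t j (t i x)
  t₀_comm : ∀ i j y, t₀ i (t₀ j y) = t₀ j (t₀ i y)
  /-- the diamond operator of a generator of `(ℤ/q)ˣ`; its order divides `(q - 1) / 2 = p ^ e * h` -/
  g : V →+ V
  h : ℕ
  hh : ¬ p ∣ h
  g_pow : ∀ x, (g^[p ^ e * h]) x = x
  g_t : ∀ i x, g (t i x) = t i (g x)
  /-- `g - 1` belongs to the localising family -/
  ig : ι
  t_ig : ∀ x, t ig x = g x - x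
  /-- `π_*` (the norm) and `π^*` -/
  dn : V →+ V₀
  up : V₀ →+ V
  dn_t : ∀ i x, dn (t i x) = t₀ i (dn x)
  up_t : ∀ i y, up (t₀ i y) = t i (up y)
  dn_g : ∀ x, dn (g x) = dn x
  g_up : ∀ y, g (up y) = up y
  up_dn : ∀ x, up (dn x) = ∑ j ∈ Finset.range (p ^ e * h), (g^[j]) x
  /-- a non Eisenstein prime `ℓ`: `t i₀ = T_ℓ - a_ℓ`, `c = a_ℓ - ℓ - 1` prime to `p`, so `t i₀ + c = T_ℓ - ℓ - 1` -/
  i₀ : ι
  c : ℤ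
  hc : IsCoprime c (p : ℤ)
  /-- (KERUP), (INV), (COKER) of `Free/Contract.lean` -/
  kerup : ∀ y, up y = 0 → t₀ i₀ y + c • y = 0
  inv : ∀ x, g x = x → ∃ y, t i₀ x + c • x = up y
  coker : ∀ y, ∃ x, t₀ i₀ y + c • y = dn x

namespace FreeRaw

variable {p e : ℕ} {ι V V₀ : Type} [AddCommGroup V] [AddCommGroup V₀]
  {t : ι → V →+ V} {t₀ : ι → V₀ →+ V₀} (R : FreeRaw p e t t₀)

/-- `δ` on `W = loc t` -/
def δ : AddMonoid.End (loc t) := mapLoc R.g R.g_t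

/-- an inverse of `h` modulo `p ^ (e + 1)` -/
noncomputable def hinv : ℕ := ((R.h : ZMod (p ^ (e + 1)))⁻¹).val

/-- the normalised `π_*` on the `m`-parts: `pr = h⁻¹ π_*` -/
noncomputable def pr : loc t →+ loc t₀ := R.hinv • mapLoc R.dn R.dn_t

/-- `π^*` on the `m`-parts -/
def inc : loc t₀ →+ loc t := mapLoc R.up R.up_t

end FreeRaw

/-- **The raw package.** -/
structure Raw (p e : ℕ) {ι V V₀ : Type} [AddCommGroup V] [AddCommGroup V₀]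
    (t : ι → V →+ V) (t₀ : ι → V₀ →+ V₀) extends FreeRaw p e t t₀ where
  κ : ℕ
  q : ℕ
  hq : q = 1 + κ * p ^ e
  hκ : ¬ p ∣ κ
  /-- `ρ(σ)`, `ρ(φ)`, `U_q`, `U_q^t = w⁻¹ U_q w` at level `H`; `ρ(σ)`, `ρ(φ)`, `U_q` at level `Γ₀` -/
  S : V →+ V
  F : V →+ V
  U : V →+ V
  Ut : V →+ V
  S₀ : V₀ →+ V₀
  F₀ : V₀ →+ V₀
  U₀ : V₀ →+ V₀
  /-- OPS: everything commutes with the localising families -/
  S_t : ∀ i x, S (t i x) = t i (S x)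
  F_t : ∀ i x, F (t i x) = t i (F x)
  U_t : ∀ i x, U (t i x) = t i (U x)
  Ut_t : ∀ i x, Ut (t i x) = t i (Ut x)
  S₀_t : ∀ i y, S₀ (t₀ i y) = t₀ i (S₀ y)
  F₀_t : ∀ i y, F₀ (t₀ i y) = t₀ i (F₀ y)
  U₀_t : ∀ i y, U₀ (t₀ i y) = t₀ i (U₀ y)
  /-- OPS: commutations -/
  g_U : ∀ x, g (U x) = U (g x)
  g_S : ∀ x, g (S x) = S (g x)
  U_S : ∀ x, U (S x) = S (U x)
  Ut_S : ∀ x, Ut (S x) = S (Ut x)
  /-- OPS-PI: equivariance -/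
  dn_S : ∀ x, dn (S x) = S₀ (dn x)
  up_S : ∀ y, up (S₀ y) = S (up y)
  dn_F : ∀ x, dn (F x) = F₀ (dn x)
  dn_U : ∀ x, dn (U x) = U₀ (dn x)
  /-- OPS + L0: `π_* U_q^t = U_{q,0}^t π_*` and `U_{q,0}^t = U_{q,0}` on the `m`-part of level `Γ₀` -/
  dn_Ut : ∀ x ∈ loc t, dn (Ut x) = U₀ (dn x)
  /-- L0: `U_{q,0}² = 1` on the `m`-part -/
  U₀_surj : ∀ y ∈ loc t₀, ∃ z ∈ loc t₀, U₀ z = y
  /-- TAME (on the `m`-part) -/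
  tame : ∀ x ∈ loc t, F (S x) = (S^[q]) (F x)
  /-- TRIV: `K = K_∞`, `K' = K_0` at level `H` (all diamond conjugates), `Y₀ = K_∞` at level `Γ₀` -/
  K : AddSubgroup V
  K' : AddSubgroup V
  Y₀ : AddSubgroup V₀
  K_g : ∀ x ∈ K, g x ∈ K
  K'_g : ∀ x ∈ K', g x ∈ K'
  SK : ∀ x, S x - x ∈ K
  SK' : ∀ x, S x - g x ∈ K'
  FK : ∀ x, F x - U x ∈ K
  FK' : ∀ x, F x - Ut x ∈ K'
  /-- TRIV (`π_* K_∞ ⊆ K_∞^0`, `π_* K_0 ⊆ K_0^0`) + E0 (`K_0^0 = K_∞^0` on the `m`-part) -/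
  dnK : ∀ x ∈ loc t, x ∈ K → dn x ∈ Y₀
  dnK' : ∀ x ∈ loc t, x ∈ K' → dn x ∈ Y₀
  /-- C4 (= INJ) -/
  γ : ∀ y ∈ loc t₀, up y ∈ K → y ∈ Y₀
  γ' : ∀ y ∈ loc t₀, up y ∈ K' → y ∈ Y₀
  /-- E0: `ker N₀ = im N₀ = Y₀` on the `m`-part, `W₀ / Y₀` free -/
  Y₀_iff : ∀ y ∈ loc t₀, S₀ y = y ↔ y ∈ Y₀
  Y₀_im : ∀ y ∈ loc t₀, y ∈ Y₀ → ∃ z ∈ loc t₀, y = S₀ z - z
  Y₀_pure : ∀ y ∈ loc t₀, p ^ e • y ∈ Y₀ → ∃ z ∈ loc t₀, ∃ z' ∈ loc t₀, z ∈ Y₀ ∧ y = z + p • z'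
  /-- L0: `φ = U_q` on `W₀ / Y₀` -/
  L0 : ∀ y ∈ loc t₀, F₀ y - U₀ y ∈ Y₀
  /-- EXP -/
  Z1 : ∀ y : V₀, p ^ e • y = 0 → ∃ z, y = p • z
  Z2 : ∀ y : V₀, p • y = 0 → ∃ z, y = p ^ e • z
  /-- DICT -/
  ne : ∃ y ∈ loc t₀, y ≠ 0

/-- **Reduction modulo `p`, raw form** (`Vb = W1 F1 p`, `π = Exp.dn`). -/
structure RawRed {p e : ℕ} {ι V V₀ : Type} [AddCommGroup V] [AddCommGroup V₀]
    {t : ι → V →+ V} {t₀ : ι → V₀ →+ V₀} (R : Raw p e t t₀)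
    {Vb : Type} [AddCommGroup Vb] (tb : ι → Vb →+ Vb) where
  hVb : ∀ v : Vb, p • v = 0
  π : V →+ Vb
  π_surj : Function.Surjective π
  ker_π : ∀ x, π x = 0 → ∃ y, x = p • y
  π_t : ∀ i x, π (t i x) = tb i (π x)
  gb : Vb →+ Vb
  Sb : Vb →+ Vb
  Fb : Vb →+ Vb
  Ub : Vb →+ Vb
  Utb : Vb →+ Vb
  gb_t : ∀ i v, gb (tb i v) = tb i (gb v)
  Sb_t : ∀ i v, Sb (tb i v) = tb i (Sb v)
  Fb_t : ∀ i v, Fb (tb i v) = tb i (Fb v)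
  Ub_t : ∀ i v, Ub (tb i v) = tb i (Ub v)
  Utb_t : ∀ i v, Utb (tb i v) = tb i (Utb v)
  π_g : ∀ x, π (R.g x) = gb (π x)
  π_S : ∀ x, π (R.S x) = Sb (π x)
  π_F : ∀ x, π (R.F x) = Fb (π x)
  π_U : ∀ x, π (R.U x) = Ub (π x)
  π_Ut : ∀ x, π (R.Ut x) = Utb (π x)

/-- **(H5), additive form**, for operators on `Wb = loc tb`. -/
structure H5Add {Wb : Type} [AddCommGroup Wb] (δb Sb Fb Ub Utb : Wb →+ Wb) where
  ι : Type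
  s : Finset ι
  t : ι → Wb →+ Wb
  c : ι → Wb →+ Wb
  t_δ : ∀ i x, t i (δb x) = δb (t i x)
  t_S : ∀ i x, t i (Sb x) = Sb (t i x)
  t_F : ∀ i x, t i (Fb x) = Fb (t i x)
  t_U : ∀ i x, t i (Ub x) = Ub (t i x)
  t_t : ∀ i j x, t i (t j x) = t j (t i x)
  t_nilp : ∀ i, ∃ N : ℕ, ∀ x, ((t i)^[N]) x = 0
  c_δ : ∀ i x, c i (δb x) = δb (c i x)
  c_U : ∀ i x, c i (Ub x) = Ub (c i x)
  c_Ut : ∀ i x, c i (Utb x) = Utb (c i x)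
  H5 : ∀ x, Sb x - x = ∑ i ∈ s, t i (c i x)

namespace RawRed

variable {p e : ℕ} {ι V V₀ : Type} [AddCommGroup V] [AddCommGroup V₀]
  {t : ι → V →+ V} {t₀ : ι → V₀ →+ V₀} {R : Raw p e t t₀}
  {Vb : Type} [AddCommGroup Vb] {tb : ι → Vb →+ Vb} (B : RawRed R tb)

/-- the (H5) contract for a raw reduction -/
abbrev H5 : Type 1 :=
  H5Add (mapLoc B.gb B.gb_t) (mapLoc B.Sb B.Sb_t) (mapLoc B.Fb B.Fb_t) (mapLoc B.Ub B.Ub_t)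
    (mapLoc B.Utb B.Utb_t)

end RawRed

end Fermat.Agent.S43.Glue
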