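/-
Row 37 (S43), block GLUE, layer 2 (helper143).  `FreeRaw ⟹` the FREE fields of `T2.Data` on the `m`-parts, and tameness.
Statements = `Glue/WIP/FreeZ.lean` (helper144).  Proofs: `S43/H/FreeZ.lean` (the structure `FreeZ.In`) + `S43/H/LocZ.lean`.
-/
import Fermat.Agent.S43.Glue.Raw
import Fermat.Agent.S43.H.FreeZ

set_option autoImplicit false

namespace Fermat.Agent.S43.Glue

open Fermat.Agent.S43.LocZ

theorem freeZ_pow_apply {W : Type*} [AddCommGroup W] (γ : W →+ W) (g : AddMonoid.End W)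
    (h : ∀ x, g x = γ x) (N : ℕ) (x : W) : (g ^ N) x = (γ^[N]) x := by
  induction N generalizing x with
  | zero => rfl
  | succ N ih =>
    rw [pow_succ, Function.iterate_succ_apply, ← ih, ← h]
    rfl

theorem freeZ_h_inj {p k h : ℕ} [Fact p.Prime] {W : Type*} [AddCommGroup W]
    (hW : ∀ x : W, p ^ k • x = 0) (hh : ¬ p ∣ h) (z : W) (hz : h • z = 0) : z = 0 := by
  have hc : IsCoprime (h : ℤ) (p : ℤ) := by
    rw [Nat.isCoprime_iff_coprime]
    exact (Nat.Coprime.symm ((Nat.Prime.coprime_iff_not_dvd (Fact.out : p.Prime)).2 hh))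
  refine eq_zero_of_coprime_zsmul hW hc ?_
  rw [natCast_zsmul]
  exact hz

/-- (U) a unipotent operator of order prime to `p` on a `p`-group is trivial. -/
theorem eq_of_unipotent {p k h : ℕ} [Fact p.Prime] {W : Type*} [AddCommGroup W]
    (hW : ∀ x : W, p ^ k • x = 0) (γ : W →+ W) (hh : ¬ p ∣ h) (hγ : ∀ x, (γ^[h]) x = x) (x : W)
    (hx : ∃ N : ℕ, ((γ - AddMonoidHom.id W)^[N]) x = 0) : γ x = x := by
  obtain ⟨N, hN⟩ := hx
  let g : AddMonoid.End W := γ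
  have hg : g ^ h = 1 := by
    ext z
    rw [freeZ_pow_apply γ g (fun _ => rfl)]
    exact hγ z
  have h1 : ((g - 1) ^ N) x = 0 := by
    rw [freeZ_pow_apply (γ - AddMonoidHom.id W) (g - 1) (fun _ => rfl)]
    exact hN
  have h2 := FreeZ.sub_one_apply_eq_zero g h hg (freeZ_h_inj hW hh) N x h1
  have h3 : γ x - x = 0 := h2
  exact sub_eq_zero.1 h3

namespace FreeRaw

variable {p e : ℕ} [Fact p.Prime] {ι V V₀ : Type} [AddCommGroup V] [AddCommGroup V₀]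
  {t : ι → V →+ V} {t₀ : ι → V₀ →+ V₀} (R : FreeRaw p e t t₀)

theorem hinv_mul : ∃ c, R.hinv * R.h = 1 + c * p ^ (e + 1) := by
  have hp1 : 1 < p ^ (e + 1) := Nat.one_lt_pow (Nat.succ_ne_zero e) (Fact.out : p.Prime).one_lt
  have : NeZero (p ^ (e + 1)) := ⟨by omega⟩
  have hcop : Nat.Coprime R.h (p ^ (e + 1)) :=
    Nat.Coprime.pow_right _
      (Nat.Coprime.symm ((Nat.Prime.coprime_iff_not_dvd (Fact.out : p.Prime)).2 R.hh))
  have h1 : ((R.hinv * R.h : ℕ) : ZMod (p ^ (e + 1))) = ((1 : ℕ) : ZMod (p ^ (e + 1))) := by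
    rw [Nat.cast_mul, hinv, ZMod.natCast_zmod_val, mul_comm, ZMod.coe_mul_inv_eq_one _ hcop,
      Nat.cast_one]
  have h2 := (ZMod.natCast_eq_natCast_iff' _ _ _).1 h1
  rw [Nat.mod_eq_of_lt hp1] at h2
  refine ⟨R.hinv * R.h / p ^ (e + 1), ?_⟩
  have h3 := Nat.div_add_mod (R.hinv * R.h) (p ^ (e + 1))
  rw [h2] at h3
  rw [mul_comm (R.hinv * R.h / p ^ (e + 1)), add_comm]
  exact h3.symm

/-- The input of `S43/H/FreeZ.lean`. -/
noncomputable def toIn : FreeZ.In p (e + 1) e R.h R.hinv ι V V₀ where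
  t := t
  t0 := t₀
  comm := R.t_comm
  comm0 := R.t₀_comm
  hV := R.hV
  hV0 := R.hV₀
  hh' := R.hinv_mul
  D := R.g
  D_t := R.g_t
  D_pow := R.g_pow
  iD := R.ig
  t_iD := R.t_ig
  up := R.up
  dn := R.dn
  up_t := R.up_t
  dn_t := R.dn_t
  up_dn := R.up_dn
  dn_D := R.dn_g
  D_up := R.g_up
  iE := R.i₀
  m := R.c
  hm := R.hc
  kerup := R.kerup
  inv := R.inv
  coker := R.coker

theorem hδ : R.δ ^ (p ^ e) = 1 := R.toIn.δ_pow

theorem pr_δ (x : loc t) : R.pr (R.δ x) = R.pr x := R.toIn.pr_δ x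

theorem inc_inj : Function.Injective R.inc := R.toIn.inc_inj

theorem δ_inc (y : loc t₀) : R.δ (R.inc y) = R.inc y := R.toIn.δ_inc y

theorem inc_pr (x : loc t) : R.inc (R.pr x) = ∑ j ∈ Finset.range (p ^ e), (R.δ ^ j) x :=
  R.toIn.inc_pr x

variable [Finite V] [Finite V₀]

theorem pr_surj : Function.Surjective R.pr := R.toIn.pr_surj

theorem fixed (x : loc t) (hx : R.δ x = x) : ∃ y, x = R.inc y := R.toIn.exists_inc_of_fixed x hx

theorem ker_pr (x : loc t) (hx : R.pr x = 0) : ∃ y, x = R.δ y - y := R.toIn.ker_pr x hx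

omit [Fact p.Prime] [Finite V₀] in
/-- `T = g - 1` is uniformly nilpotent on `loc t`. -/
theorem exists_T_nilp : ∃ N : ℕ, ∀ x ∈ loc t, ((t R.ig)^[N]) x = 0 := by
  classical
  have h1 : ∀ x : loc t, ∃ N : ℕ, ((t R.ig)^[N]) (x : V) = 0 := fun x => x.2 R.ig
  choose f hf using h1
  have := Fintype.ofFinite (loc t)
  refine ⟨Finset.univ.sup f, fun x hx => ?_⟩
  exact iterate_eq_zero_of_le (hf ⟨x, hx⟩) (Finset.le_sup (f := f) (Finset.mem_univ _))

/-- **Tameness on `loc t`**: an operator `τ` commuting with `g`, compatible with `dn`, with `(τ₀ - 1)² = 0` on `loc t₀`, has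
order prime to `q` on `loc t` (`(τ - 1)² W ⊆ ker pr = T W`, so `τ` is unipotent; then (U) for `τ ^ (m / q)`, `m` the order). -/
theorem exists_iterate_eq (τ : V →+ V) (τ₀ : V₀ →+ V₀) (τ_t : ∀ i x, τ (t i x) = t i (τ x))
    (τ_g : ∀ x, τ (R.g x) = R.g (τ x)) (dn_τ : ∀ x, R.dn (τ x) = τ₀ (R.dn x))
    (hτ₀ : ∀ y ∈ loc t₀, τ₀ (τ₀ y - y) = τ₀ y - y) (hfin : ∃ m : ℕ, 0 < m ∧ ∀ x, (τ^[m]) x = x)
    {q : ℕ} (hq : q.Prime) (hqp : q ≠ p) :
    ∃ m : ℕ, ¬ q ∣ m ∧ ∀ x ∈ loc t, (τ^[m]) x = x := by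
  set ν : V →+ V := τ - AddMonoidHom.id V with hν
  have hνa : ∀ x, ν x = τ x - x := fun _ => rfl
  have ν_t : ∀ i x, ν (t i x) = t i (ν x) := by
    intro i x
    rw [hνa, hνa, τ_t, map_sub]
  have ν_mem : ∀ x ∈ loc t, ν x ∈ loc t := fun x hx => map_mem_loc ν ν_t hx
  -- `ν² W ⊆ T W`
  have h1 : ∀ x ∈ loc t, ∃ y ∈ loc t, ν (ν x) = t R.ig y := by
    intro x hx
    have hmem : ν (ν x) ∈ loc t := ν_mem _ (ν_mem _ hx)
    have hdn : R.dn (ν (ν x)) = 0 := by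
      have e1 : ∀ z, R.dn (ν z) = τ₀ (R.dn z) - R.dn z := by
        intro z
        rw [hνa, map_sub, dn_τ]
      rw [e1, e1, map_sub, ← map_sub τ₀, hτ₀ _ (map_mem_loc R.dn R.dn_t hx), sub_self]
    have hpr : R.pr ⟨ν (ν x), hmem⟩ = 0 := by
      apply Subtype.ext
      show R.hinv • R.dn (ν (ν x)) = 0
      rw [hdn, smul_zero]
    obtain ⟨y, hy⟩ := R.ker_pr _ hpr
    refine ⟨y, y.2, ?_⟩
    have := congrArg Subtype.val hy
    rw [R.t_ig]
    exact this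
  have h2 : ∀ (j : ℕ), ∀ x ∈ loc t, ∃ y ∈ loc t, (ν^[2 * j]) x = ((t R.ig)^[j]) y := by
    intro j
    induction j with
    | zero => intro x hx; exact ⟨x, hx, rfl⟩
    | succ j ih =>
      intro x hx
      obtain ⟨y₁, hy₁, e1⟩ := h1 x hx
      obtain ⟨y₂, hy₂, e2⟩ := ih y₁ hy₁
      refine ⟨y₂, hy₂, ?_⟩
      have e3 : 2 * (j + 1) = 2 * j + 1 + 1 := by ring
      have e4 := iterate_comm_apply (t := ν) (t' := t R.ig) (fun z => ν_t R.ig z) (2 * j) 1 y₁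
      rw [Function.iterate_one] at e4
      rw [e3, Function.iterate_succ_apply, Function.iterate_succ_apply, e1, e4, e2,
        ← Function.iterate_succ_apply' (t R.ig)]
  obtain ⟨N₀, hN₀⟩ := R.exists_T_nilp
  have h3 : ∀ x ∈ loc t, (ν^[2 * N₀]) x = 0 := by
    intro x hx
    obtain ⟨y, hy, e1⟩ := h2 N₀ x hx
    rw [e1, hN₀ y hy]
  obtain ⟨m, hm0, hm⟩ := hfin
  obtain ⟨s, m', hm', rfl⟩ := Nat.exists_eq_pow_mul_and_not_dvd hm0.ne' q hq.ne_one
  refine ⟨m', hm', fun x hx => ?_⟩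
  let τr : AddMonoid.End V := τ
  let γ : V →+ V := (τr ^ m' : AddMonoid.End V)
  have hγc : ∀ z, γ z = (τ^[m']) z := fun z => freeZ_pow_apply τ τr (fun _ => rfl) m' z
  have hγf : (⇑γ : V → V) = (⇑τ)^[m'] := funext hγc
  have hps : ¬ p ∣ q ^ s := by
    intro hd
    have h4 := (Fact.out : p.Prime).dvd_of_dvd_pow hd
    exact hqp ((Nat.prime_dvd_prime_iff_eq (Fact.out : p.Prime) hq).1 h4).symm
  have hγpow : ∀ z, (γ^[q ^ s]) z = z := by
    intro z
    rw [hγf, ← Function.iterate_mul, mul_comm]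
    exact hm z
  have hnil : ∃ N : ℕ, ((γ - AddMonoidHom.id V)^[N]) x = 0 := by
    refine ⟨2 * N₀, ?_⟩
    set G : AddMonoid.End V := ∑ i ∈ Finset.range m', τr ^ i with hG
    have e2 : τr ^ m' - 1 = G * (τr - 1) := (geom_sum_mul τr m').symm
    have e3 : Commute G (τr - 1) := by
      have : Commute G τr := Commute.sum_left _ _ _ fun i _ => (Commute.refl τr).pow_left i
      exact this.sub_right (Commute.one_right G)
    rw [← freeZ_pow_apply (γ - AddMonoidHom.id V) (τr ^ m' - 1) (fun _ => rfl), e2, e3.mul_pow]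
    show (G ^ (2 * N₀)) (((τr - 1) ^ (2 * N₀)) x) = 0
    rw [freeZ_pow_apply ν (τr - 1) (fun _ => rfl), h3 x hx, map_zero]
  have h5 := eq_of_unipotent R.hV γ hps hγpow x hnil
  rw [← hγc]
  exact h5

end FreeRaw

end Fermat.Agent.S43.Glue
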