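/-
Row 37 (S43), block GLUE.  `Glue/RawPkg.lean`: `Raw ⟹ Glue.Pkg` on the `m`-parts (skeleton of helper144; proofs helper128).
-/
import Fermat.Agent.S43.Glue.FreeZ

set_option autoImplicit false

namespace Fermat.Agent.S43.Glue

open Fermat.Agent.S43.LocZ

namespace FreeRaw

variable {p e : ℕ} {ι V V₀ : Type} [AddCommGroup V] [AddCommGroup V₀]
  {t : ι → V →+ V} {t₀ : ι → V₀ →+ V₀} (R : FreeRaw p e t t₀)

theorem rawPkg_coe_δ (x : loc t) : ((R.δ x : loc t) : V) = R.g x := rfl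

theorem rawPkg_coe_pr (x : loc t) : ((R.pr x : loc t₀) : V₀) = R.hinv • R.dn x := rfl

theorem rawPkg_coe_inc (y : loc t₀) : ((R.inc y : loc t) : V) = R.up y := rfl

end FreeRaw

/-- iterates of a restricted operator -/
theorem rawPkg_coe_iterate {ι A : Type*} [AddCommGroup A] {t : ι → A →+ A} (f : A →+ A)
    (h : ∀ i x, f (t i x) = t i (f x)) (n : ℕ) (x : loc t) :
    ((((mapLoc f h : loc t →+ loc t))^[n] x : loc t) : A) = (f^[n]) (x : A) := by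
  induction n generalizing x with
  | zero => rfl
  | succ n ih => rw [Function.iterate_succ_apply, ih, Function.iterate_succ_apply]; rfl

namespace Raw

variable {p e : ℕ} [Fact p.Prime] {ι V V₀ : Type} [AddCommGroup V] [AddCommGroup V₀]
  [Finite V] [Finite V₀] {t : ι → V →+ V} {t₀ : ι → V₀ →+ V₀} (R : Raw p e t t₀)

/-- the restricted operators -/
def SW : loc t →+ loc t := mapLoc R.S R.S_t
def FW : loc t →+ loc t := mapLoc R.F R.F_t
def UW : loc t →+ loc t := mapLoc R.U R.U_t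
def UtW : loc t →+ loc t := mapLoc R.Ut R.Ut_t
def SW₀ : loc t₀ →+ loc t₀ := mapLoc R.S₀ R.S₀_t
def FW₀ : loc t₀ →+ loc t₀ := mapLoc R.F₀ R.F₀_t
def UW₀ : loc t₀ →+ loc t₀ := mapLoc R.U₀ R.U₀_t

omit [Fact p.Prime] [Finite V] [Finite V₀] in
/-- `N₀ y = 0 ↔ y ∈ Y₀` on the `m`-part -/
theorem rawPkg_N₀_eq_zero_iff (y : loc t₀) :
    (R.SW₀ - AddMonoidHom.id (loc t₀) : loc t₀ →+ loc t₀) y = 0 ↔ (y : V₀) ∈ R.Y₀ := by
  rw [← R.Y₀_iff y y.2, AddMonoidHom.sub_apply, sub_eq_zero]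
  constructor
  · intro h
    exact congrArg Subtype.val h
  · intro h
    exact Subtype.ext h

/-- `N₀ W₀ ⊆ Y₀` -/
theorem rawPkg_N₀_mem (z : loc t₀) :
    (((R.SW₀ - AddMonoidHom.id (loc t₀) : loc t₀ →+ loc t₀) z : loc t₀) : V₀) ∈ R.Y₀ := by
  obtain ⟨x, rfl⟩ := R.toFreeRaw.pr_surj z
  have h1 : R.dn (R.S x - x) ∈ R.Y₀ :=
    R.dnK _ ((loc t).sub_mem (R.SW x).2 x.2) (R.SK x)
  have h2 : (((R.SW₀ - AddMonoidHom.id (loc t₀) : loc t₀ →+ loc t₀) (R.toFreeRaw.pr x) : loc t₀) : V₀) =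
      R.hinv • R.dn (R.S x - x) := by
    show R.S₀ (R.hinv • R.dn x) - R.hinv • R.dn x = _
    rw [map_sub, R.dn_S, smul_sub, map_nsmul]
  rw [h2]
  exact R.Y₀.nsmul_mem h1 _

/-- **`Raw ⟹ T2.Data`.** -/
noncomputable def t2 : T2.Data p (e + 1) e (loc t) (loc t₀) where
  hk := Nat.succ_pos e
  hW := fun x => Subtype.ext (by rw [AddSubgroup.coe_nsmul, R.hV]; rfl)
  δ := R.toFreeRaw.δ
  a := R.SW - AddMonoidHom.id _
  N₀ := R.SW₀ - AddMonoidHom.id _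
  pr := R.toFreeRaw.pr
  inc := R.toFreeRaw.inc
  hδ := R.toFreeRaw.hδ
  pr_surj := R.toFreeRaw.pr_surj
  pr_δ := R.toFreeRaw.pr_δ
  ker_pr := R.toFreeRaw.ker_pr
  inc_inj := R.toFreeRaw.inc_inj
  δ_inc := R.toFreeRaw.δ_inc
  inc_pr := R.toFreeRaw.inc_pr
  pr_a := fun x => Subtype.ext (by
    show R.hinv • R.dn (R.S x - x) = R.S₀ (R.hinv • R.dn x) - R.hinv • R.dn x
    rw [map_sub, R.dn_S, smul_sub, map_nsmul])
  a_inc := fun y => Subtype.ext (by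
    show R.S (R.up y) - R.up y = R.up (R.S₀ y - y)
    rw [map_sub, R.up_S])
  hE := fun y => by
    constructor
    · intro h
      obtain ⟨z, hz, hyz⟩ := R.Y₀_im y y.2 ((R.rawPkg_N₀_eq_zero_iff y).1 h)
      exact ⟨⟨z, hz⟩, Subtype.ext hyz⟩
    · rintro ⟨z, rfl⟩
      exact (R.rawPkg_N₀_eq_zero_iff _).2 (R.rawPkg_N₀_mem z)
  hpure := fun y h => by
    rw [Nat.add_sub_cancel] at h
    have h1 := (R.rawPkg_N₀_eq_zero_iff _).1 h
    rw [AddSubgroup.coe_nsmul] at h1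
    obtain ⟨z, hz, z', hz', hzY, hy⟩ := R.Y₀_pure y y.2 h1
    obtain ⟨z'', hz'', hzz⟩ := R.Y₀_im z hz hzY
    refine ⟨⟨z'', hz''⟩, ⟨z', hz'⟩, Subtype.ext ?_⟩
    rw [hy, hzz]
    rfl
  K := R.K.comap (loc t).subtype
  K' := R.K'.comap (loc t).subtype
  K_δ := fun x hx => R.K_g x hx
  K'_δ := fun x hx => R.K'_g x hx
  aK := fun x => R.SK x
  bK' := fun x => by
    have h := R.SK' x
    have e1 : R.S x - R.g x = (R.S x - x) - (R.g x - x) := by abel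
    rw [e1] at h
    exact h
  prK := fun x hx => (R.rawPkg_N₀_eq_zero_iff _).2 (R.Y₀.nsmul_mem (R.dnK x x.2 hx) _)
  prK' := fun x hx => (R.rawPkg_N₀_eq_zero_iff _).2 (R.Y₀.nsmul_mem (R.dnK' x x.2 hx) _)
  γ := fun y hy => (R.rawPkg_N₀_eq_zero_iff _).2 (R.γ y y.2 hy)
  γ' := fun y hy => (R.rawPkg_N₀_eq_zero_iff _).2 (R.γ' y y.2 hy)

/-- **`Raw ⟹ Glue.Pkg`.** -/
noncomputable def pkg : Pkg p e (loc t) (loc t₀) where
  toData := R.t2
  κ := R.κ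
  q := R.q
  hq := R.hq
  hκ := R.hκ
  S := R.SW
  F := R.FW
  U := R.UW
  Ut := R.UtW
  F₀ := R.FW₀
  U₀ := R.UW₀
  a_eq := fun _ => rfl
  δ_U := fun x => Subtype.ext (R.g_U x)
  δ_S := fun x => Subtype.ext (R.g_S x)
  U_S := fun x => Subtype.ext (R.U_S x)
  Ut_S := fun x => Subtype.ext (R.Ut_S x)
  tame := fun x => Subtype.ext (by
    rw [SW, rawPkg_coe_iterate]
    exact R.tame x x.2)
  pr_F := fun x => Subtype.ext (by
    show R.hinv • R.dn (R.F x) = R.F₀ (R.hinv • R.dn x)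
    rw [R.dn_F, map_nsmul])
  pr_U := fun x => Subtype.ext (by
    show R.hinv • R.dn (R.U x) = R.U₀ (R.hinv • R.dn x)
    rw [R.dn_U, map_nsmul])
  pr_Ut := fun x => Subtype.ext (by
    show R.hinv • R.dn (R.Ut x) = R.U₀ (R.hinv • R.dn x)
    rw [R.dn_Ut x x.2, map_nsmul])
  U₀_surj := fun y => by
    obtain ⟨z, hz, hzy⟩ := R.U₀_surj y y.2
    exact ⟨⟨z, hz⟩, Subtype.ext hzy⟩
  FK := fun x => R.FK x
  FK' := fun x => R.FK' x
  L0 := fun y => (R.rawPkg_N₀_eq_zero_iff _).2 (R.L0 y y.2)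
  Z1 := fun y hy => by
    obtain ⟨z, hz⟩ := R.Z1 y (by rw [← AddSubgroup.coe_nsmul, hy]; rfl)
    obtain ⟨z', hz', hzz⟩ := exists_mem_loc_map_eq (s := t₀) R.t₀_comm
      (p • AddMonoidHom.id V₀) (fun i x => by simp) (x := z)
      (by
        show p • z ∈ loc t₀
        rw [← hz]; exact y.2)
    refine ⟨⟨z', hz'⟩, Subtype.ext ?_⟩
    rw [hz]
    exact hzz.symm
  Z2 := fun y hy => by
    obtain ⟨z, hz⟩ := R.Z2 y (by rw [← AddSubgroup.coe_nsmul, hy]; rfl)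
    obtain ⟨z', hz', hzz⟩ := exists_mem_loc_map_eq (s := t₀) R.t₀_comm
      (p ^ e • AddMonoidHom.id V₀) (fun i x => by simp) (x := z)
      (by
        show p ^ e • z ∈ loc t₀
        rw [← hz]; exact y.2)
    refine ⟨⟨z', hz'⟩, Subtype.ext ?_⟩
    rw [hz]
    exact hzz.symm

include R in
omit [Fact p.Prime] [Finite V] [Finite V₀] in
theorem nontrivial_W₀ : Nontrivial (loc t₀) := by
  obtain ⟨y, hy, hne⟩ := R.ne
  exact ⟨⟨⟨y, hy⟩, 0, fun h => hne (congrArg Subtype.val h)⟩⟩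

end Raw

end Fermat.Agent.S43.Glue
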