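/-
Row 37 (S43), block GLUE.  `Glue/RawRed.lean`: `RawRed + H5Add ⟹ Glue.Red`, and the LAYER 2 THEOREM `RawRed.nonempty_data`
(skeleton of helper144; proofs helper128).
-/
import Fermat.Agent.S43.Glue.RawPkg

set_option autoImplicit false

namespace Fermat.Agent.S43.Glue

open Fermat.Agent.S43.LocZ

namespace RawRed

variable {p e : ℕ} [Fact p.Prime] {ι V V₀ : Type} [AddCommGroup V] [AddCommGroup V₀]
  [Finite V] [Finite V₀] {t : ι → V →+ V} {t₀ : ι → V₀ →+ V₀} {R : Raw p e t t₀}
  {Vb : Type} [AddCommGroup Vb] {tb : ι → Vb →+ Vb} (B : RawRed R tb)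

/-- the `𝔽_p`-structure of `Wb = loc tb` -/
@[reducible] def modb : Module (ZMod p) (loc tb) :=
  AddCommGroup.zmodModule fun x => Subtype.ext (by
    rw [AddSubgroup.coe_nsmul, B.hVb]; rfl)

/-- an additive endomorphism of `Wb` as a linear map -/
def lin (f : loc tb →+ loc tb) : @Module.End (ZMod p) (loc tb) _ _ B.modb :=
  letI := B.modb
  f.toZModLinearMap p

theorem lin_apply (f : loc tb →+ loc tb) (x : loc tb) :
    letI := B.modb
    B.lin f x = f x := rfl

theorem lin_commute {f g : loc tb →+ loc tb} (h : ∀ x, f (g x) = g (f x)) :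
    letI := B.modb
    Commute (B.lin f) (B.lin g) := by
  letI := B.modb
  exact LinearMap.ext fun x => h x

theorem lin_pow_apply (f : loc tb →+ loc tb) (n : ℕ) (x : loc tb) :
    letI := B.modb
    (B.lin f ^ n) x = (f^[n]) x := by
  letI := B.modb
  rw [Module.End.pow_apply]
  rfl

/-- **`RawRed + H5Add ⟹ Glue.Red`.** -/
noncomputable def red (H : B.H5) : @Red p e (loc t) (loc t₀) _ _ R.pkg (loc tb) _ B.modb :=
  letI := B.modb
  { π := mapLoc B.π B.π_t
    π_surj := mapLoc_surjective R.t_comm B.π B.π_t B.π_surj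
    ker_π := fun x hx => by
      obtain ⟨y, hy⟩ := B.ker_π x (congrArg Subtype.val hx)
      obtain ⟨y', hy', hyy⟩ := exists_mem_loc_map_eq (s := t) R.t_comm
        (p • AddMonoidHom.id V) (fun i x => by simp) (x := y)
        (by
          show p • y ∈ loc t
          rw [← hy]; exact x.2)
      refine ⟨⟨y', hy'⟩, Subtype.ext ?_⟩
      rw [hy]
      exact hyy.symm
    δb := B.lin (mapLoc B.gb B.gb_t)
    Sb := B.lin (mapLoc B.Sb B.Sb_t)
    Fb := B.lin (mapLoc B.Fb B.Fb_t)
    Ub := B.lin (mapLoc B.Ub B.Ub_t)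
    Utb := B.lin (mapLoc B.Utb B.Utb_t)
    π_δ := fun x => Subtype.ext (B.π_g x)
    π_S := fun x => Subtype.ext (B.π_S x)
    π_F := fun x => Subtype.ext (B.π_F x)
    π_U := fun x => Subtype.ext (B.π_U x)
    π_Ut := fun x => Subtype.ext (B.π_Ut x)
    ι := H.ι
    s := H.s
    t := fun i => B.lin (H.t i)
    c := fun i => B.lin (H.c i)
    t_δ := fun i => B.lin_commute (H.t_δ i)
    t_S := fun i => B.lin_commute (H.t_S i)
    t_F := fun i => B.lin_commute (H.t_F i)
    t_U := fun i => B.lin_commute (H.t_U i)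
    t_t := fun i j => B.lin_commute (H.t_t i j)
    t_nilp := fun i => by
      obtain ⟨N, hN⟩ := H.t_nilp i
      exact ⟨N, LinearMap.ext fun x => (B.lin_pow_apply (H.t i) N x).trans (hN x)⟩
    c_δ := fun i => B.lin_commute (H.c_δ i)
    c_U := fun i => B.lin_commute (H.c_U i)
    c_Ut := fun i => B.lin_commute (H.c_Ut i)
    H5 := LinearMap.ext fun x => by
      rw [LinearMap.sum_apply]
      exact H.H5 x }

include B in
/-- **GLUE, layer 2.** -/
theorem nonempty_data (H : B.H5) : Nonempty (CoreP.Data p) := by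
  letI := B.modb
  haveI := R.nontrivial_W₀
  exact (B.red H).nonempty_data

end RawRed

end Fermat.Agent.S43.Glue
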